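import Fermat.Agent.V.RR.Pack

/-!
# Program V (S27), leaf (C2a) WEIER, part 1: functions regular off a place, pole order

* `v27wB P0 : Subalgebra K F` : the functions regular off `P0`;
* `v27wRho P0 f : ℕ`          : the pole order of `f` at `P0`;
* additivity / ultrametric inequality of the pole order, `ρ f = 0 ↔ f` constant;
* `v27w_exists_sub` : the leading-coefficient lemma at a place of degree one.
-/

set_option autoImplicit false
set_option linter.unusedSectionVars false
set_option linter.unusedVariables false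

noncomputable section

namespace Fermat.Agent.V.Weier

open AlgebraicCurve Module Fermat.Agent.S24 Fermat.Agent.V.Dual Fermat.Agent.V.RR

variable {K F : Type*} [Field K] [Field F] [Algebra K F]

/-- the functions regular off `P0`. -/
def v27wB (P0 : Place K F) : Subalgebra K F where
  carrier := {f | ∀ v : Place K F, v ≠ P0 → f ∈ v.toValuationSubring}
  mul_mem' := fun ha hb v hv => v.toValuationSubring.mul_mem _ _ (ha v hv) (hb v hv)
  add_mem' := fun ha hb v hv => v.toValuationSubring.add_mem _ _ (ha v hv) (hb v hv)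
  algebraMap_mem' := fun c v _ => v.algebraMap_mem' c

theorem v27w_mem_B_iff {P0 : Place K F} {f : F} :
    f ∈ v27wB P0 ↔ ∀ v : Place K F, v ≠ P0 → 0 ≤ v.ord f :=
  ⟨fun h v hv => PlaceOrd.ord_nonneg_of_mem v (h v hv),
    fun h v hv => PlaceOrd.mem_of_ord_nonneg v (h v hv)⟩

/-- the pole order at `P0`. -/
def v27wRho (P0 : Place K F) (f : F) : ℕ := (-(P0.ord f)).toNat

@[simp] theorem v27wRho_zero (P0 : Place K F) : v27wRho P0 (0 : F) = 0 := by
  simp [v27wRho]

@[simp] theorem v27wRho_one (P0 : Place K F) : v27wRho P0 (1 : F) = 0 := by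
  simp [v27wRho]

theorem v27wRho_algebraMap (P0 : Place K F) (c : K) : v27wRho P0 (algebraMap K F c) = 0 := by
  simp [v27wRho, PlaceOrd.ord_algebraMap]

section

variable [HasPrincipalDivisors K F]
  (hres : ∀ v : Place K F, Module.Finite K v.ResidueField)

include hres

/-- a non-zero function regular off `P0` has a pole (or order `0`) at `P0`. -/
theorem v27w_ord_nonpos {P0 : Place K F} {f : F} (hf : f ∈ v27wB P0) (hf0 : f ≠ 0) :
    P0.ord f ≤ 0 := by
  by_contra hcon
  rw [not_le] at hcon
  refine hf0 (v27rr_eq_zero_of_ord hres (fun v => ?_) hcon)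
  by_cases hv : v = P0
  · subst hv; exact hcon.le
  · exact v27w_mem_B_iff.mp hf v hv

theorem v27w_rho_eq {P0 : Place K F} {f : F} (hf : f ∈ v27wB P0) (hf0 : f ≠ 0) :
    (v27wRho P0 f : ℤ) = -(P0.ord f) := by
  rw [v27wRho, Int.toNat_of_nonneg]
  have := v27w_ord_nonpos hres hf hf0
  omega

theorem v27w_rho_mul {P0 : Place K F} {f h : F} (hf : f ∈ v27wB P0) (hh : h ∈ v27wB P0)
    (hf0 : f ≠ 0) (hh0 : h ≠ 0) : v27wRho P0 (f * h) = v27wRho P0 f + v27wRho P0 h := by
  have h1 := v27w_rho_eq hres hf hf0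
  have h2 := v27w_rho_eq hres hh hh0
  have h3 := v27w_rho_eq hres ((v27wB P0).mul_mem hf hh) (mul_ne_zero hf0 hh0)
  rw [Place.ord_mul P0 hf0 hh0] at h3
  have : (v27wRho P0 (f * h) : ℤ) = v27wRho P0 f + v27wRho P0 h := by rw [h1, h2, h3]; ring
  exact_mod_cast this

theorem v27w_rho_pow {P0 : Place K F} {f : F} (hf : f ∈ v27wB P0) (hf0 : f ≠ 0) (m : ℕ) :
    v27wRho P0 (f ^ m) = m * v27wRho P0 f := by
  induction m with
  | zero => simp
  | succ m ih =>
    rw [pow_succ, v27w_rho_mul hres ((v27wB P0).pow_mem hf m) hf (pow_ne_zero m hf0) hf0, ih]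
    ring

end

/-- membership in `L(n P0)`. -/
theorem v27w_mem_rrSpace_iff {P0 : Place K F} {n : ℕ} {f : F} :
    f ∈ riemannRochSpace (Finsupp.single P0 (n : ℤ)) ↔
      f = 0 ∨ (f ∈ v27wB P0 ∧ -(n : ℤ) ≤ P0.ord f) := by
  classical
  rw [mem_riemannRochSpace_iff]
  constructor
  · intro h
    by_cases hf0 : f = 0
    · exact Or.inl hf0
    right
    refine ⟨v27w_mem_B_iff.mpr fun v hv => ?_, ?_⟩
    · have := (h v).resolve_left hf0
      rwa [Finsupp.single_eq_of_ne hv, neg_zero] at this
    · have := (h P0).resolve_left hf0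
      rwa [Finsupp.single_eq_same] at this
  · rintro (rfl | ⟨hB, hn⟩) v
    · exact Or.inl rfl
    · right
      by_cases hv : v = P0
      · subst hv; rwa [Finsupp.single_eq_same]
      · rw [Finsupp.single_eq_of_ne hv, neg_zero]
        exact v27w_mem_B_iff.mp hB v hv

/-- strict ultrametric inequality: if `ord h > ord f` then `ord (f + h) = ord f`. -/
theorem v27w_ord_add_eq (v : Place K F) {f h : F} (hf0 : f ≠ 0) (hh0 : h ≠ 0)
    (hlt : v.ord f < v.ord h) : f + h ≠ 0 ∧ v.ord (f + h) = v.ord f := by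
  have hne : f + h ≠ 0 := by
    intro h0
    have : h = -f := by rw [← sub_eq_zero, sub_neg_eq_add, add_comm]; exact h0
    rw [this, PlaceOrd.ord_neg] at hlt
    exact lt_irrefl _ hlt
  refine ⟨hne, le_antisymm ?_ ?_⟩
  · by_contra hcon
    rw [not_le] at hcon
    have h1 := PlaceOrd.min_le_ord_add v (f := f + h) (g := -h) (by simpa using hf0)
    rw [add_neg_cancel_right, PlaceOrd.ord_neg] at h1
    have := lt_min hcon hlt
    omega
  · have := PlaceOrd.min_le_ord_add v hne
    rwa [min_eq_left hlt.le] at this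

/-- **leading-coefficient lemma**: at a place of degree one, two functions of the same order
differ, up to a constant factor, by a function of larger order. -/
theorem v27w_exists_sub {P0 : Place K F} (hdeg : P0.deg = 1) {f h : F} (hf0 : f ≠ 0) (hh0 : h ≠ 0)
    (hord : P0.ord f = P0.ord h) :
    ∃ c : K, c ≠ 0 ∧ (f - c • h = 0 ∨ P0.ord f < P0.ord (f - c • h)) := by
  set u : F := f * h⁻¹ with hu
  have hu0 : u ≠ 0 := mul_ne_zero hf0 (inv_ne_zero hh0)
  have hordu : P0.ord u = 0 := by
    rw [hu, Place.ord_mul P0 hf0 (inv_ne_zero hh0), Place.ord_inv, hord]; ring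
  obtain ⟨hmem, hmem'⟩ := (PlaceOrd.ord_eq_zero_iff P0 hu0).mp hordu
  -- the residue of `u` is a constant
  have hfr : finrank K P0.ResidueField = 1 := hdeg
  obtain ⟨c, hc⟩ : ∃ c : K, c • (1 : P0.ResidueField) =
      IsLocalRing.residue P0.toValuationSubring ⟨u, hmem⟩ :=
    (finrank_eq_one_iff_of_nonzero' (1 : P0.ResidueField) one_ne_zero).mp hfr _
  have hc' : IsLocalRing.residue P0.toValuationSubring
      (⟨u, hmem⟩ - algebraMap K P0.toValuationSubring c) = 0 := by
    rw [map_sub, ← hc, Algebra.smul_def, mul_one]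
    exact sub_eq_zero.mpr rfl
  have hmax : (⟨u, hmem⟩ - algebraMap K P0.toValuationSubring c : P0.toValuationSubring) ∈
      IsLocalRing.maximalIdeal P0.toValuationSubring := (IsLocalRing.residue_eq_zero_iff _).mp hc'
  have hcoe : ((⟨u, hmem⟩ - algebraMap K P0.toValuationSubring c : P0.toValuationSubring) : F) =
      u - algebraMap K F c := rfl
  have hc0 : c ≠ 0 := by
    rintro rfl
    rw [map_zero, sub_zero] at hmax
    have hunit : IsUnit (⟨u, hmem⟩ : P0.toValuationSubring) := by
      refine IsUnit.of_mul_eq_one ⟨u⁻¹, hmem'⟩ ?_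
      apply Subtype.ext
      simp [hu0]
    exact (IsLocalRing.mem_maximalIdeal _).mp hmax hunit
  refine ⟨c, hc0, ?_⟩
  have hfac : f - c • h = h * (u - algebraMap K F c) := by
    rw [hu, Algebra.smul_def]
    field_simp
  by_cases hz : u - algebraMap K F c = 0
  · left
    rw [hfac, hz, mul_zero]
  · right
    have hz' : (⟨u, hmem⟩ - algebraMap K P0.toValuationSubring c : P0.toValuationSubring) ≠ 0 := by
      intro h0
      apply hz
      rw [← hcoe, h0]
      rfl
    have hpos := (PlaceOrd.ord_pos_iff_mem_maximalIdeal P0 hz').mpr hmax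
    rw [hcoe] at hpos
    rw [hfac, Place.ord_mul P0 hh0 hz, hord]
    omega

end Fermat.Agent.V.Weier
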