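import Fermat.Agent.V.Weier.Exist

/-!
# Program V (S27), leaf (C2a) WEIER, part 10: `F = Frac (v27wB P0)` and the weight form of `ρ`

Table-independent inputs for the `V27Presented` instance on the `F`-side (any characteristic):

* `v27w_exists_frac R hdeg f : ∃ b ∈ v27wB P0, b ≠ 0 ∧ f * b ∈ v27wB P0` (by Riemann's inequality);
* `v27w_psi_frac R hdeg D f : ∃ a b, b ≠ 0 ∧ f * Ψ b = Ψ a`;
* `v27w_psi_ord_le_iff hres D ha m : -(P0.ord (Ψ a)) ≤ m ↔ ∀ j r, m < N * r + d j → (a j).coeff r = 0`;
* `v27w_psi_cover`, `v27w_psi_range` : `Ψ a` is regular off `P0`, and every function regular off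
  `P0` is a `Ψ a`.
-/

set_option autoImplicit false
set_option linter.unusedSectionVars false
set_option linter.unusedVariables false

noncomputable section

namespace Fermat.Agent.V.Weier

open AlgebraicCurve Module Polynomial Fermat.Agent.S24 Fermat.Agent.V.Dual Fermat.Agent.V.RR

variable {K F : Type*} [Field K] [Field F] [Algebra K F]

/-- **`F` is the fraction field of the ring of functions regular off `P0`**: every `f` has a
denominator in `v27wB P0`. -/
theorem v27w_exists_frac {g : ℕ} (R : V27RR K F g) {P0 : Place K F} (hdeg : P0.deg = 1) (f : F) :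
    ∃ b : F, b ∈ v27wB P0 ∧ b ≠ 0 ∧ f * b ∈ v27wB P0 := by
  classical
  have := R.hasDiv
  rcases eq_or_ne f 0 with rfl | hf0
  · exact ⟨1, (v27wB P0).one_mem, one_ne_zero, by rw [zero_mul]; exact (v27wB P0).zero_mem⟩
  -- the pole divisor of `f`
  set E : Divisor K F := (v27d_div K f).mapRange (fun n : ℤ => max (-n) 0) (by simp) with hE
  have hEv : ∀ v : Place K F, E v = max (-(v.ord f)) 0 := fun v => by
    rw [hE, Finsupp.mapRange_apply, v27d_div_apply']
  have hE0 : 0 ≤ E := by
    rw [Finsupp.le_def]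
    intro v
    rw [hEv, Finsupp.zero_apply]
    exact le_max_right _ _
  have hdegE : 0 ≤ Divisor.degree E := v27rr_degree_nonneg hE0
  set m : ℕ := ((g : ℤ) + Divisor.degree E).toNat with hm
  have hmz : ((m : ℕ) : ℤ) = (g : ℤ) + Divisor.degree E := by
    rw [hm, Int.toNat_of_nonneg]; positivity
  obtain ⟨b, hb0, hb⟩ := R.exists_ne_zero_mem (D := Finsupp.single P0 (m : ℤ) - E) (by
    rw [map_sub, Divisor.degree_single, hdeg, Nat.cast_one, mul_one, hmz]; linarith)
  rw [mem_riemannRochSpace_iff] at hb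
  have hbv : ∀ v : Place K F, v ≠ P0 → E v ≤ v.ord b := by
    intro v hv
    have := (hb v).resolve_left hb0
    rwa [Finsupp.sub_apply, Finsupp.single_eq_of_ne hv, zero_sub, neg_neg] at this
  refine ⟨b, v27w_mem_B_iff.mpr fun v hv => ?_, hb0, v27w_mem_B_iff.mpr fun v hv => ?_⟩
  · have h1 := hbv v hv
    rw [hEv] at h1
    exact le_trans (le_max_right _ _) h1
  · have h1 := hbv v hv
    rw [hEv] at h1
    rw [Place.ord_mul v hf0 hb0]
    have := le_trans (le_max_left _ _) h1
    linarith

variable {N : ℕ} [NeZero N]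

/-- `Ψ a` is regular off `P0`. -/
theorem v27w_psi_cover {P0 : Place K F} {x : F} {d : ZMod N → ℕ} {e : ZMod N → F}
    (D : V27wData P0 N x d e) (a : ZMod N → K[X]) (v : Place K F) (hv : v ≠ P0) :
    v27wPsi x e a ∈ v.toValuationSubring :=
  v27w_psi_mem D a v hv

section

variable [HasPrincipalDivisors K F]
  {P0 : Place K F} {x : F} {d : ZMod N → ℕ} {e : ZMod N → F}

/-- every function regular off `P0` is a normal form. -/
theorem v27w_psi_range (hres : ∀ v : Place K F, Module.Finite K v.ResidueField)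
    (hdeg : P0.deg = 1) (D : V27wData P0 N x d e) (f : F)
    (hf : ∀ v : Place K F, v ≠ P0 → f ∈ v.toValuationSubring) :
    ∃ a : ZMod N → K[X], v27wPsi x e a = f :=
  v27w_psi_surjective hres hdeg D (f := f) hf

/-- **the pole order of a normal form is its weight** (coefficient form). -/
theorem v27w_psi_ord_le_iff (hres : ∀ v : Place K F, Module.Finite K v.ResidueField)
    (D : V27wData P0 N x d e) {a : ZMod N → K[X]} (ha : a ≠ 0) (m : ℕ) :
    -(P0.ord (v27wPsi x e a)) ≤ (m : ℤ) ↔
      ∀ (j : ZMod N) (r : ℕ), m < N * r + d j → (a j).coeff r = 0 := by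
  obtain ⟨hne, ⟨j0, hj0, hrho⟩, hle⟩ := v27w_psi_rho hres D ha
  have hord := v27w_rho_eq hres (v27w_psi_mem D a) hne
  rw [← hord]
  constructor
  · intro h j r hjr
    by_contra hc
    have haj : a j ≠ 0 := by
      intro h0
      rw [h0, Polynomial.coeff_zero] at hc
      exact hc rfl
    have h1 := hle j haj
    have h2 : r ≤ (a j).natDegree := Polynomial.le_natDegree_of_ne_zero hc
    have h3 : N * r ≤ N * (a j).natDegree := Nat.mul_le_mul_left N h2
    have h4 : v27wRho P0 (v27wPsi x e a) ≤ m := by exact_mod_cast h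
    omega
  · intro h
    by_contra hc
    rw [not_le] at hc
    have h1 : m < N * (a j0).natDegree + d j0 := by
      rw [← hrho]; exact_mod_cast hc
    exact (Polynomial.leadingCoeff_ne_zero.mpr hj0) (h j0 _ h1)

/-- the exact form: `ρ (Ψ a) = m` iff all weights are `≤ m` and the weight `m` occurs. -/
theorem v27w_psi_rho_eq_iff (hres : ∀ v : Place K F, Module.Finite K v.ResidueField)
    (D : V27wData P0 N x d e) {a : ZMod N → K[X]} (ha : a ≠ 0) (m : ℕ) :
    P0.ord (v27wPsi x e a) = -(m : ℤ) ↔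
      (∀ (j : ZMod N) (r : ℕ), m < N * r + d j → (a j).coeff r = 0) ∧
        ∃ (j : ZMod N) (r : ℕ), N * r + d j = m ∧ (a j).coeff r ≠ 0 := by
  obtain ⟨hne, ⟨j0, hj0, hrho⟩, hle⟩ := v27w_psi_rho hres D ha
  have hord := v27w_rho_eq hres (v27w_psi_mem D a) hne
  constructor
  · intro h
    refine ⟨(v27w_psi_ord_le_iff hres D ha m).mp (by omega), j0, (a j0).natDegree, ?_,
      Polynomial.leadingCoeff_ne_zero.mpr hj0⟩
    have : (v27wRho P0 (v27wPsi x e a) : ℤ) = m := by omega
    have := Int.ofNat_inj.mp this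
    omega
  · rintro ⟨h1, j, r, hjr, hc⟩
    have h2 := (v27w_psi_ord_le_iff hres D ha m).mpr h1
    have haj : a j ≠ 0 := by
      intro h0
      rw [h0, Polynomial.coeff_zero] at hc
      exact hc rfl
    have h3 := hle j haj
    have h4 : r ≤ (a j).natDegree := Polynomial.le_natDegree_of_ne_zero hc
    have h5 : N * r ≤ N * (a j).natDegree := Nat.mul_le_mul_left N h4
    have h6 : (m : ℤ) ≤ (v27wRho P0 (v27wPsi x e a) : ℤ) := by
      have : m ≤ v27wRho P0 (v27wPsi x e a) := by omega
      exact_mod_cast this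
    omega

end

/-- `F = Frac (Ψ (K[X]^N))`. -/
theorem v27w_psi_frac {g : ℕ} (R : V27RR K F g) {P0 : Place K F} (hdeg : P0.deg = 1)
    {x : F} {d : ZMod N → ℕ} {e : ZMod N → F} (D : V27wData P0 N x d e) (f : F) :
    ∃ a b : ZMod N → K[X], b ≠ 0 ∧ f * v27wPsi x e b = v27wPsi x e a := by
  have := R.hasDiv
  obtain ⟨b', hb'B, hb'0, hfb⟩ := v27w_exists_frac R hdeg f
  obtain ⟨b, hb⟩ := v27w_psi_surjective R.res hdeg D hb'B
  obtain ⟨a, ha⟩ := v27w_psi_surjective R.res hdeg D hfb
  refine ⟨a, b, ?_, by rw [hb, ha]⟩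
  rintro rfl
  rw [map_zero] at hb
  exact hb'0 hb.symm

end Fermat.Agent.V.Weier
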