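import Fermat.Agent.V.Weier.Exist

/-!
# Program V (S27), leaf (C2a) WEIER, part 8 (W1): the gap count

For pole-order-adapted data `D : V27wData P0 N x d e` on a curve with Riemann–Roch package
`R : V27RR K F g` and `P0.deg = 1`:

  `v27w_gap_count : ∑ j : ZMod N, d j / N = g`.

Proof: for `m = N t + (N - 1)`, `t` large, the space `L(m P0)` is the image under the (injective)
normal form `Ψ` of the coefficient box `deg (a j) < t + 1 - d j / N`, so
`l(m P0) = N (t + 1) - ∑ j, d j / N`; Riemann–Roch gives `l(m P0) = N (t + 1) - g`.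
-/

set_option autoImplicit false
set_option linter.unusedSectionVars false
set_option linter.unusedVariables false

noncomputable section

namespace Fermat.Agent.V.Weier

open AlgebraicCurve Module Polynomial Fermat.Agent.S24 Fermat.Agent.V.Dual Fermat.Agent.V.RR

variable {K F : Type*} [Field K] [Field F] [Algebra K F] {N : ℕ} [NeZero N]

/-- the coefficient box: `a j` has degree `< c j`. -/
def v27wBox (K : Type*) [Field K] {N : ℕ} (c : ZMod N → ℕ) : Submodule K (ZMod N → K[X]) :=
  Submodule.pi Set.univ (fun j => Polynomial.degreeLT K (c j))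

theorem v27w_mem_box {c : ZMod N → ℕ} {a : ZMod N → K[X]} :
    a ∈ v27wBox K c ↔ ∀ j, (a j).degree < c j := by
  rw [v27wBox, Submodule.mem_pi]
  constructor
  · intro h j
    exact Polynomial.mem_degreeLT.mp (h j (Set.mem_univ j))
  · intro h j _
    exact Polynomial.mem_degreeLT.mpr (h j)

/-- the box is a product of the spaces `K[X]_{< c j}`. -/
def v27wBoxEquiv (c : ZMod N → ℕ) :
    (∀ j : ZMod N, Polynomial.degreeLT K (c j)) ≃ₗ[K] v27wBox K c where
  toFun f := ⟨fun j => (f j : K[X]), fun j _ => (f j).2⟩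
  invFun a := fun j => ⟨a.1 j, a.2 j (Set.mem_univ j)⟩
  map_add' := fun f g => rfl
  map_smul' := fun r f => rfl
  left_inv := fun f => rfl
  right_inv := fun a => rfl

theorem v27w_finrank_box (c : ZMod N → ℕ) : finrank K (v27wBox K c) = ∑ j, c j := by
  rw [← (v27wBoxEquiv (K := K) c).finrank_eq, Module.finrank_pi_fintype]
  refine Finset.sum_congr rfl fun j _ => ?_
  rw [Module.finrank_eq_card_basis (Polynomial.degreeLT.basis K (c j)), Fintype.card_fin]

/-- the arithmetic of the box. -/
theorem v27w_box_arith {N : ℕ} (hN : 0 < N) (k dj t : ℕ) :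
    N * k + dj ≤ N * t + (N - 1) ↔ k + dj / N ≤ t := by
  have h1 := Nat.div_add_mod dj N
  have h2 := Nat.mod_lt dj hN
  constructor
  · intro h
    by_contra hcon
    rw [not_le] at hcon
    have h3 : N * (t + 1) ≤ N * (k + dj / N) := Nat.mul_le_mul_left N hcon
    rw [mul_add, mul_add, mul_one] at h3
    omega
  · intro h
    have h3 : N * (k + dj / N) ≤ N * t := Nat.mul_le_mul_left N h
    rw [mul_add] at h3
    omega

section

variable [HasPrincipalDivisors K F]
  {P0 : Place K F} {x : F} {d : ZMod N → ℕ} {e : ZMod N → F}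

/-- `Ψ a ∈ L(m P0)` iff `a` lies in the coefficient box (`m = N t + (N - 1)`). -/
theorem v27w_psi_mem_rrSpace_iff (hres : ∀ v : Place K F, Module.Finite K v.ResidueField)
    (D : V27wData P0 N x d e) (t : ℕ) (ht : ∀ j, d j / N ≤ t) (a : ZMod N → K[X]) :
    v27wPsi x e a ∈ riemannRochSpace (Finsupp.single P0 ((N * t + (N - 1) : ℕ) : ℤ)) ↔
      a ∈ v27wBox K (fun j => t + 1 - d j / N) := by
  have hN : 0 < N := Nat.pos_of_ne_zero (NeZero.ne N)
  rw [v27w_mem_rrSpace_iff, v27w_mem_box]
  by_cases ha : a = 0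
  · subst ha
    constructor
    · intro _ j
      rw [Pi.zero_apply, Polynomial.degree_zero]
      exact WithBot.bot_lt_coe _
    · intro _
      exact Or.inl (map_zero _)
  obtain ⟨hne, ⟨j0, hj0, hrho⟩, hle⟩ := v27w_psi_rho hres D ha
  have hB := v27w_psi_mem D a
  have hord := v27w_rho_eq hres hB hne
  constructor
  · rintro (h0 | ⟨-, hm⟩) j
    · exact absurd h0 hne
    by_cases haj : a j = 0
    · rw [haj, Polynomial.degree_zero]
      exact WithBot.bot_lt_coe _
    · have h1 := hle j haj
      have h2 : N * (a j).natDegree + d j ≤ N * t + (N - 1) := by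
        have : (v27wRho P0 (v27wPsi x e a) : ℤ) ≤ ((N * t + (N - 1) : ℕ) : ℤ) := by omega
        have := Int.ofNat_le.mp this
        omega
      have h3 := (v27w_box_arith hN _ _ _).mp h2
      rw [Polynomial.degree_eq_natDegree haj]
      have h4 := ht j
      exact_mod_cast (by omega : (a j).natDegree < t + 1 - d j / N)
  · intro h
    right
    refine ⟨hB, ?_⟩
    have h1 := h j0
    rw [Polynomial.degree_eq_natDegree hj0] at h1
    have h2 : (a j0).natDegree < t + 1 - d j0 / N := by exact_mod_cast h1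
    have h3 : N * (a j0).natDegree + d j0 ≤ N * t + (N - 1) :=
      (v27w_box_arith hN _ _ _).mpr (by omega)
    rw [← hrho] at h3
    have : (v27wRho P0 (v27wPsi x e a) : ℤ) ≤ ((N * t + (N - 1) : ℕ) : ℤ) := by
      exact_mod_cast h3
    omega

/-- `L(m P0)` is the image of the coefficient box. -/
theorem v27w_rrSpace_eq_map (hres : ∀ v : Place K F, Module.Finite K v.ResidueField)
    (hdeg : P0.deg = 1) (D : V27wData P0 N x d e) (t : ℕ) (ht : ∀ j, d j / N ≤ t) :
    riemannRochSpace (Finsupp.single P0 ((N * t + (N - 1) : ℕ) : ℤ)) =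
      (v27wBox K (fun j => t + 1 - d j / N)).map (v27wPsi x e) := by
  ext f
  rw [Submodule.mem_map]
  constructor
  · intro hf
    have hfB : f ∈ v27wB P0 := by
      rcases v27w_mem_rrSpace_iff.mp hf with rfl | ⟨h, -⟩
      · exact (v27wB P0).zero_mem
      · exact h
    obtain ⟨a, rfl⟩ := v27w_psi_surjective hres hdeg D hfB
    exact ⟨a, (v27w_psi_mem_rrSpace_iff hres D t ht a).mp hf, rfl⟩
  · rintro ⟨a, ha, rfl⟩
    exact (v27w_psi_mem_rrSpace_iff hres D t ht a).mpr ha

theorem v27w_finrank_rrSpace (hres : ∀ v : Place K F, Module.Finite K v.ResidueField)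
    (hdeg : P0.deg = 1) (D : V27wData P0 N x d e) (t : ℕ) (ht : ∀ j, d j / N ≤ t) :
    finrank K (riemannRochSpace (Finsupp.single P0 ((N * t + (N - 1) : ℕ) : ℤ))) =
      ∑ j : ZMod N, (t + 1 - d j / N) := by
  rw [v27w_rrSpace_eq_map hres hdeg D t ht,
    ← (Submodule.equivMapOfInjective (v27wPsi x e) (v27w_psi_injective hres D) _).finrank_eq,
    v27w_finrank_box]

end

/-- **(W1) the gap count**: `∑ j, ⌊d j / N⌋ = g`. -/
theorem v27w_gap_count {g : ℕ} (R : V27RR K F g) {P0 : Place K F} (hdeg : P0.deg = 1)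
    {x : F} {d : ZMod N → ℕ} {e : ZMod N → F} (D : V27wData P0 N x d e) :
    ∑ j : ZMod N, d j / N = g := by
  haveI := R.hasDiv
  have hres := R.res
  have hN : 0 < N := Nat.pos_of_ne_zero (NeZero.ne N)
  set t : ℕ := (∑ j : ZMod N, d j / N) + 2 * g with ht_def
  have ht : ∀ j, d j / N ≤ t := by
    intro j
    have : d j / N ≤ ∑ j : ZMod N, d j / N :=
      Finset.single_le_sum (f := fun j => d j / N) (fun _ _ => Nat.zero_le _) (Finset.mem_univ j)
    omega
  have h1 := v27w_finrank_rrSpace hres hdeg D t ht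
  have hdegD : Divisor.degree (Finsupp.single P0 ((N * t + (N - 1) : ℕ) : ℤ)) =
      ((N * t + (N - 1) : ℕ) : ℤ) := by
    rw [Divisor.degree_single, hdeg, Nat.cast_one, mul_one]
  have hNt : t ≤ N * t := Nat.le_mul_of_pos_left t hN
  have h2 := (R.finrank_of_lt (D := Finsupp.single P0 ((N * t + (N - 1) : ℕ) : ℤ))
    (by rw [hdegD]; push_cast; omega)).1
  rw [hdegD, h1] at h2
  -- the sum over the box
  have h3 : ∑ j : ZMod N, (t + 1 - d j / N) + ∑ j : ZMod N, d j / N = N * (t + 1) := by
    rw [← Finset.sum_add_distrib]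
    have : ∀ j : ZMod N, t + 1 - d j / N + d j / N = t + 1 := fun j => by
      have := ht j; omega
    rw [Finset.sum_congr rfl fun j _ => this j, Finset.sum_const, Finset.card_univ, ZMod.card,
      smul_eq_mul]
  have h4 : N * (t + 1) = N * t + N := by ring
  have h5 : ((∑ j : ZMod N, (t + 1 - d j / N) : ℕ) : ℤ) + ((∑ j : ZMod N, d j / N : ℕ) : ℤ) =
      ((N * t + N : ℕ) : ℤ) := by
    rw [← h4, ← h3]; push_cast; ring
  have h6 : ((N * t + (N - 1) : ℕ) : ℤ) + 1 = ((N * t + N : ℕ) : ℤ) := by
    have : N * t + (N - 1) + 1 = N * t + N := by omega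
    exact_mod_cast this
  have h7 : ((∑ j : ZMod N, d j / N : ℕ) : ℤ) = (g : ℤ) := by linarith
  exact_mod_cast h7

end Fermat.Agent.V.Weier
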