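import Fermat.Agent.V.Weier.Surj

/-!
# Program V (S27), leaf (C2a) WEIER, part 5: existence of pole-order-adapted data
-/

set_option autoImplicit false
set_option linter.unusedSectionVars false
set_option linter.unusedVariables false

noncomputable section

namespace Fermat.Agent.V.Weier

open AlgebraicCurve Module Polynomial Fermat.Agent.S24 Fermat.Agent.V.Dual Fermat.Agent.V.RR

variable {K F : Type*} [Field K] [Field F] [Algebra K F]

/-- a function with a single pole of prescribed large order, in the language of `v27wB`. -/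
theorem v27w_exists_rho {g : ℕ} (R : V27RR K F g) {P0 : Place K F} (hdeg : P0.deg = 1) {n : ℕ}
    (hn : 2 * g ≤ n) : ∃ f : F, f ∈ v27wB P0 ∧ f ≠ 0 ∧ v27wRho P0 f = n := by
  obtain ⟨f, hf0, hord, hreg⟩ := R.exists_single_pole P0 hdeg hn
  exact ⟨f, v27w_mem_B_iff.mpr hreg, hf0, by rw [v27wRho, hord, neg_neg, Int.toNat_natCast]⟩

/-- **existence of pole-order-adapted data** for a given `x` with a single pole of order `N`. -/
theorem v27w_exists_data {g : ℕ} (R : V27RR K F g) {P0 : Place K F} (hdeg : P0.deg = 1)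
    (N : ℕ) [NeZero N] {x : F} (hx : x ∈ v27wB P0) (hx0 : x ≠ 0) (hN : v27wRho P0 x = N) :
    ∃ (d : ZMod N → ℕ) (e : ZMod N → F), V27wData P0 N x d e := by
  classical
  have hS : ∀ j : ZMod N, ∃ n : ℕ, (∃ f : F, f ∈ v27wB P0 ∧ f ≠ 0 ∧ v27wRho P0 f = n) ∧
      ((n : ℕ) : ZMod N) = j := by
    intro j
    refine ⟨j.val + N * (2 * g), v27w_exists_rho R hdeg ?_, ?_⟩
    · have hN0 : 0 < N := Nat.pos_of_ne_zero (NeZero.ne N)
      nlinarith
    · push_cast
      rw [ZMod.natCast_self, zero_mul, add_zero, ZMod.natCast_zmod_val]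
  let d : ZMod N → ℕ := fun j => Nat.find (hS j)
  have hd : ∀ j, (∃ f : F, f ∈ v27wB P0 ∧ f ≠ 0 ∧ v27wRho P0 f = d j) ∧
      ((d j : ℕ) : ZMod N) = j := fun j => Nat.find_spec (hS j)
  have hd0 : d 0 = 0 := by
    have : d 0 ≤ 0 := Nat.find_min' (hS 0)
      ⟨⟨1, (v27wB P0).one_mem, one_ne_zero, v27wRho_one P0⟩, by simp⟩
    omega
  let e : ZMod N → F := fun j => if j = 0 then 1 else (hd j).1.choose
  have he : ∀ j, e j ∈ v27wB P0 ∧ e j ≠ 0 ∧ v27wRho P0 (e j) = d j := by
    intro j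
    by_cases hj : j = 0
    · subst hj
      simp only [e, if_true]
      exact ⟨(v27wB P0).one_mem, one_ne_zero, by rw [v27wRho_one, hd0]⟩
    · simp only [e, if_neg hj]
      exact (hd j).1.choose_spec
  refine ⟨d, e, ?_⟩
  exact
    { x_mem := hx
      x_ne := hx0
      x_rho := hN
      e_mem := fun j => (he j).1
      e_ne := fun j => (he j).2.1
      e_rho := fun j => (he j).2.2
      d_cong := fun j => (hd j).2
      d_min := fun f hf hf0 => Nat.find_min' (hS _) ⟨⟨f, hf, hf0, rfl⟩, rfl⟩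
      e_zero := by simp [e] }

/-- existence of `N`, `x`, `d`, `e` (with `N = 2g + 1`). -/
theorem v27w_exists {g : ℕ} (R : V27RR K F g) {P0 : Place K F} (hdeg : P0.deg = 1) :
    ∃ (x : F) (d : ZMod (2 * g + 1) → ℕ) (e : ZMod (2 * g + 1) → F),
      V27wData P0 (2 * g + 1) x d e := by
  obtain ⟨x, hx, hx0, hN⟩ := v27w_exists_rho R hdeg (n := 2 * g + 1) (by omega)
  obtain ⟨d, e, D⟩ := v27w_exists_data R hdeg (2 * g + 1) hx hx0 hN
  exact ⟨x, d, e, D⟩

end Fermat.Agent.V.Weier
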