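import Fermat.Agent.V.Weier.Sum

/-!
# Program V (S27), leaf (C2a) WEIER, part 3: the normal form

`V27wData P0 N x d e`: `x` has a single pole of order `N` at `P0`; `e j` (`j : ZMod N`) is regular off
`P0` with pole order `d j ≡ j mod N`, minimal in its residue class; `e 0 = 1`.

`v27wPsi x e a = ∑ j, (a j)(x) · e j` for `a : ZMod N → K[X]`.

* `v27w_psi_rho`  : for `a ≠ 0`: `Ψ a ≠ 0` and `ρ (Ψ a) = max_j (N · deg (a j) + d j)`;
* `v27w_psi_injective`, `v27w_psi_mem`, `v27w_psi_surjective` : `Ψ` is a bijection onto `v27wB P0`.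
-/

set_option autoImplicit false
set_option linter.unusedSectionVars false
set_option linter.unusedVariables false

noncomputable section

namespace Fermat.Agent.V.Weier

open AlgebraicCurve Module Polynomial Fermat.Agent.S24 Fermat.Agent.V.Dual Fermat.Agent.V.RR

variable {K F : Type*} [Field K] [Field F] [Algebra K F]

/-- pole-order-adapted data at `P0`. -/
structure V27wData (P0 : Place K F) (N : ℕ) [NeZero N] (x : F) (d : ZMod N → ℕ)
    (e : ZMod N → F) : Prop where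
  x_mem : x ∈ v27wB P0
  x_ne : x ≠ 0
  x_rho : v27wRho P0 x = N
  e_mem : ∀ j, e j ∈ v27wB P0
  e_ne : ∀ j, e j ≠ 0
  e_rho : ∀ j, v27wRho P0 (e j) = d j
  d_cong : ∀ j, ((d j : ℕ) : ZMod N) = j
  d_min : ∀ f ∈ v27wB P0, f ≠ 0 → d ((v27wRho P0 f : ℕ) : ZMod N) ≤ v27wRho P0 f
  e_zero : e 0 = 1

variable {N : ℕ} [NeZero N]

/-- `Ψ a = ∑ j, (a j)(x) · e j`. -/
def v27wPsi (x : F) (e : ZMod N → F) : (ZMod N → K[X]) →ₗ[K] F :=
  ∑ j : ZMod N, (LinearMap.mulRight K (e j)) ∘ₗ (aeval x).toLinearMap ∘ₗ (LinearMap.proj j)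

theorem v27wPsi_apply (x : F) (e : ZMod N → F) (a : ZMod N → K[X]) :
    v27wPsi x e a = ∑ j : ZMod N, aeval x (a j) * e j := by
  simp [v27wPsi, LinearMap.sum_apply]

theorem v27wPsi_single (x : F) (e : ZMod N → F) (j : ZMod N) (p : K[X]) :
    v27wPsi x e (Pi.single j p) = aeval x p * e j := by
  classical
  rw [v27wPsi_apply, Finset.sum_eq_single j]
  · rw [Pi.single_eq_same]
  · intro i _ hij
    rw [Pi.single_eq_of_ne hij, map_zero, zero_mul]
  · intro h; exact absurd (Finset.mem_univ j) h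

/-- the index set of the monomial expansion. -/
def v27wS (a : ZMod N → K[X]) : Finset (Σ _ : ZMod N, ℕ) :=
  (Finset.univ : Finset (ZMod N)).sigma fun j => (a j).support

/-- the monomial terms. -/
def v27wTerm (x : F) (e : ZMod N → F) (a : ZMod N → K[X]) (i : Σ _ : ZMod N, ℕ) : F :=
  algebraMap K F ((a i.1).coeff i.2) * x ^ i.2 * e i.1

theorem v27wPsi_eq_sum (x : F) (e : ZMod N → F) (a : ZMod N → K[X]) :
    v27wPsi x e a = ∑ i ∈ v27wS a, v27wTerm x e a i := by
  rw [v27wPsi_apply, v27wS, Finset.sum_sigma]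
  refine Finset.sum_congr rfl fun j _ => ?_
  rw [aeval_def, eval₂_eq_sum, Polynomial.sum_def, Finset.sum_mul]
  rfl

theorem v27w_mem_S {a : ZMod N → K[X]} {i : Σ _ : ZMod N, ℕ} :
    i ∈ v27wS a ↔ (a i.1).coeff i.2 ≠ 0 := by
  simp [v27wS]

section

variable [HasPrincipalDivisors K F]
  (hres : ∀ v : Place K F, Module.Finite K v.ResidueField)
  {P0 : Place K F} {x : F} {d : ZMod N → ℕ} {e : ZMod N → F}

include hres

theorem V27wData.ord_x (D : V27wData P0 N x d e) : P0.ord x = -(N : ℤ) := by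
  have := v27w_rho_eq hres D.x_mem D.x_ne
  rw [D.x_rho] at this
  omega

theorem V27wData.ord_e (D : V27wData P0 N x d e) (j : ZMod N) : P0.ord (e j) = -(d j : ℤ) := by
  have := v27w_rho_eq hres (D.e_mem j) (D.e_ne j)
  rw [D.e_rho] at this
  omega

theorem v27w_term_ne_zero (D : V27wData P0 N x d e) {a : ZMod N → K[X]}
    {i : Σ _ : ZMod N, ℕ} (hi : i ∈ v27wS a) : v27wTerm x e a i ≠ 0 := by
  rw [v27w_mem_S] at hi
  exact mul_ne_zero (mul_ne_zero (by simpa using hi) (pow_ne_zero _ D.x_ne)) (D.e_ne _)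

theorem v27w_ord_term (D : V27wData P0 N x d e) {a : ZMod N → K[X]}
    {i : Σ _ : ZMod N, ℕ} (hi : i ∈ v27wS a) :
    P0.ord (v27wTerm x e a i) = -((N * i.2 + d i.1 : ℕ) : ℤ) := by
  rw [v27w_mem_S] at hi
  have hc : algebraMap K F ((a i.1).coeff i.2) ≠ 0 := by simpa using hi
  rw [v27wTerm, Place.ord_mul P0 (mul_ne_zero hc (pow_ne_zero _ D.x_ne)) (D.e_ne _),
    Place.ord_mul P0 hc (pow_ne_zero _ D.x_ne), PlaceOrd.ord_algebraMap, ← zpow_natCast,
    Place.ord_zpow, D.ord_x hres, D.ord_e hres]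
  push_cast
  ring

theorem v27w_key_injective (D : V27wData P0 N x d e) {i i' : Σ _ : ZMod N, ℕ}
    (h : N * i.2 + d i.1 = N * i'.2 + d i'.1) : i = i' := by
  have h1 : ((N * i.2 + d i.1 : ℕ) : ZMod N) = ((N * i'.2 + d i'.1 : ℕ) : ZMod N) := by rw [h]
  push_cast at h1
  rw [ZMod.natCast_self, zero_mul, zero_mul, zero_add, zero_add, D.d_cong, D.d_cong] at h1
  obtain ⟨j, m⟩ := i
  obtain ⟨j', m'⟩ := i'
  simp only at h h1
  subst h1
  have hN : 0 < N := Nat.pos_of_ne_zero (NeZero.ne N)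
  have : m = m' := by
    have : N * m = N * m' := by omega
    exact Nat.eq_of_mul_eq_mul_left hN this
  rw [this]

/-- **pole order of a normal form**. -/
theorem v27w_psi_rho (D : V27wData P0 N x d e) {a : ZMod N → K[X]} (ha : a ≠ 0) :
    v27wPsi x e a ≠ 0 ∧
    (∃ j, a j ≠ 0 ∧ v27wRho P0 (v27wPsi x e a) = N * (a j).natDegree + d j) ∧
    ∀ j, a j ≠ 0 → N * (a j).natDegree + d j ≤ v27wRho P0 (v27wPsi x e a) := by
  classical
  have hS : (v27wS a).Nonempty := by
    obtain ⟨j, hj⟩ := Function.ne_iff.mp ha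
    refine ⟨⟨j, (a j).natDegree⟩, v27w_mem_S.mpr ?_⟩
    exact Polynomial.leadingCoeff_ne_zero.mpr hj
  obtain ⟨i₀, hi₀, hmin, hne, hord⟩ := v27w_ord_sum P0 (v27wS a) (v27wTerm x e a)
    (fun i hi => v27w_term_ne_zero hres D hi)
    (fun i hi i' hi' h => by
      simp only at h
      rw [v27w_ord_term hres D hi, v27w_ord_term hres D hi', neg_inj] at h
      exact v27w_key_injective hres D (by exact_mod_cast h)) hS
  rw [← v27wPsi_eq_sum] at hne hord
  have hrho : v27wRho P0 (v27wPsi x e a) = N * i₀.2 + d i₀.1 := by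
    rw [v27wRho, hord, v27w_ord_term hres D hi₀, neg_neg, Int.toNat_natCast]
  have hle : ∀ j, a j ≠ 0 → N * (a j).natDegree + d j ≤ N * i₀.2 + d i₀.1 := by
    intro j hj
    have hmem : (⟨j, (a j).natDegree⟩ : Σ _ : ZMod N, ℕ) ∈ v27wS a :=
      v27w_mem_S.mpr (Polynomial.leadingCoeff_ne_zero.mpr hj)
    have := hmin _ hmem
    rw [v27w_ord_term hres D hi₀, v27w_ord_term hres D hmem, neg_le_neg_iff] at this
    exact_mod_cast this
  have hi₀' := v27w_mem_S.mp hi₀
  have haj : a i₀.1 ≠ 0 := by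
    intro h0
    rw [h0, Polynomial.coeff_zero] at hi₀'
    exact hi₀' rfl
  have hdeg : i₀.2 = (a i₀.1).natDegree := by
    apply le_antisymm (Polynomial.le_natDegree_of_ne_zero hi₀')
    have := hle _ haj
    have hN : 0 < N := Nat.pos_of_ne_zero (NeZero.ne N)
    have h2 : N * (a i₀.1).natDegree ≤ N * i₀.2 := by omega
    exact Nat.le_of_mul_le_mul_left h2 hN
  refine ⟨hne, ⟨i₀.1, haj, by rw [hrho, hdeg]⟩, fun j hj => by rw [hrho]; exact hle j hj⟩

theorem v27w_psi_injective (D : V27wData P0 N x d e) :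
    Function.Injective (v27wPsi (K := K) x e) := by
  rw [← LinearMap.ker_eq_bot, LinearMap.ker_eq_bot']
  intro a ha
  by_contra hne
  exact (v27w_psi_rho hres D hne).1 ha

end

theorem v27w_aeval_mem {P0 : Place K F} {x : F} (hx : x ∈ v27wB P0) (p : K[X]) :
    aeval x p ∈ v27wB P0 := by
  have := Subalgebra.aeval_coe (v27wB P0) (⟨x, hx⟩ : v27wB P0) p
  rw [Subtype.coe_mk] at this
  rw [this]
  exact Subtype.mem _

theorem v27w_psi_mem {P0 : Place K F} {x : F} {d : ZMod N → ℕ} {e : ZMod N → F}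
    (D : V27wData P0 N x d e) (a : ZMod N → K[X]) : v27wPsi x e a ∈ v27wB P0 := by
  rw [v27wPsi_apply]
  exact Subalgebra.sum_mem _ fun j _ =>
    (v27wB P0).mul_mem (v27w_aeval_mem D.x_mem (a j)) (D.e_mem j)

end Fermat.Agent.V.Weier
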