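import Fermat.Agent.V.Weier.Basic

/-!
# Program V (S27), leaf (C2a) WEIER, part 2: sums of functions with pairwise distinct orders
-/

set_option autoImplicit false
set_option linter.unusedSectionVars false
set_option linter.unusedVariables false

noncomputable section

namespace Fermat.Agent.V.Weier

open AlgebraicCurve Module Fermat.Agent.S24

variable {K F : Type*} [Field K] [Field F] [Algebra K F]

/-- if every term is zero or of order `> m`, so is the sum. -/
theorem v27w_lt_ord_sum (v : Place K F) {ι : Type*} (t : Finset ι) (f : ι → F) (m : ℤ)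
    (h : ∀ i ∈ t, f i = 0 ∨ m < v.ord (f i)) :
    (∑ i ∈ t, f i) = 0 ∨ m < v.ord (∑ i ∈ t, f i) := by
  classical
  induction t using Finset.induction_on with
  | empty => left; simp
  | insert a t ha ih =>
    rw [Finset.sum_insert ha]
    have h1 := h a (Finset.mem_insert_self a t)
    have h2 := ih fun i hi => h i (Finset.mem_insert_of_mem hi)
    by_cases h0 : f a + ∑ i ∈ t, f i = 0
    · exact Or.inl h0
    right
    rcases h1 with h1 | h1
    · rw [h1, zero_add] at h0 ⊢
      exact h2.resolve_left h0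
    rcases h2 with h2 | h2
    · rw [h2, add_zero]; exact h1
    · exact lt_of_lt_of_le (lt_min h1 h2) (PlaceOrd.min_le_ord_add v h0)

/-- a sum of non-zero functions with pairwise distinct orders is non-zero and its order is the
least order of a term. -/
theorem v27w_ord_sum (v : Place K F) {ι : Type*} (s : Finset ι) (f : ι → F)
    (hne : ∀ i ∈ s, f i ≠ 0) (hinj : Set.InjOn (fun i => v.ord (f i)) (s : Set ι))
    (hs : s.Nonempty) :
    ∃ i₀ ∈ s, (∀ i ∈ s, v.ord (f i₀) ≤ v.ord (f i)) ∧ (∑ i ∈ s, f i) ≠ 0 ∧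
      v.ord (∑ i ∈ s, f i) = v.ord (f i₀) := by
  classical
  obtain ⟨i₀, hi₀, hmin⟩ := Finset.exists_min_image s (fun i => v.ord (f i)) hs
  refine ⟨i₀, hi₀, hmin, ?_⟩
  rw [← Finset.add_sum_erase s f hi₀]
  have hrest := v27w_lt_ord_sum v (s.erase i₀) f (v.ord (f i₀)) (fun i hi => by
    right
    have him := Finset.mem_of_mem_erase hi
    refine lt_of_le_of_ne (hmin i him) fun heq => ?_
    exact Finset.ne_of_mem_erase hi (hinj (Finset.mem_coe.mpr him) (Finset.mem_coe.mpr hi₀) heq.symm))
  by_cases hr0 : (∑ i ∈ s.erase i₀, f i) = 0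
  · rw [hr0, add_zero]
    exact ⟨hne i₀ hi₀, rfl⟩
  · exact v27w_ord_add_eq v (hne i₀ hi₀) hr0 (hrest.resolve_left hr0)

end Fermat.Agent.V.Weier
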