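import Fermat.Agent.V.Weier.Normal

/-!
# Program V (S27), leaf (C2a) WEIER, part 4: every function regular off `P0` has a normal form
-/

set_option autoImplicit false
set_option linter.unusedSectionVars false
set_option linter.unusedVariables false

noncomputable section

namespace Fermat.Agent.V.Weier

open AlgebraicCurve Module Polynomial Fermat.Agent.S24 Fermat.Agent.V.Dual Fermat.Agent.V.RR

variable {K F : Type*} [Field K] [Field F] [Algebra K F] {N : ℕ} [NeZero N]
  [HasPrincipalDivisors K F]

/-- the pole order of `x ^ m * e j`. -/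
theorem v27w_rho_mon (hres : ∀ v : Place K F, Module.Finite K v.ResidueField)
    {P0 : Place K F} {x : F} {d : ZMod N → ℕ} {e : ZMod N → F} (D : V27wData P0 N x d e)
    (m : ℕ) (j : ZMod N) : v27wRho P0 (x ^ m * e j) = N * m + d j := by
  rw [v27w_rho_mul hres ((v27wB P0).pow_mem D.x_mem m) (D.e_mem j) (pow_ne_zero m D.x_ne)
    (D.e_ne j), v27w_rho_pow hres D.x_mem D.x_ne, D.x_rho, D.e_rho, mul_comm]

/-- **surjectivity of the normal form**. -/
theorem v27w_psi_surjective (hres : ∀ v : Place K F, Module.Finite K v.ResidueField)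
    {P0 : Place K F} (hdeg : P0.deg = 1) {x : F} {d : ZMod N → ℕ} {e : ZMod N → F}
    (D : V27wData P0 N x d e) {f : F} (hf : f ∈ v27wB P0) :
    ∃ a : ZMod N → K[X], v27wPsi x e a = f := by
  suffices H : ∀ n : ℕ, ∀ f : F, f ∈ v27wB P0 → v27wRho P0 f = n →
      ∃ a : ZMod N → K[X], v27wPsi x e a = f from H _ f hf rfl
  intro n
  induction n using Nat.strong_induction_on with
  | _ n ih =>
    intro f hf hn
    rcases eq_or_ne f 0 with rfl | hf0
    · exact ⟨0, map_zero _⟩
    -- the residue class of the pole order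
    set j : ZMod N := ((v27wRho P0 f : ℕ) : ZMod N) with hj
    have hmin : d j ≤ v27wRho P0 f := D.d_min f hf hf0
    have hdvd : N ∣ v27wRho P0 f - d j := by
      rw [← ZMod.natCast_eq_zero_iff, Nat.cast_sub hmin, D.d_cong, ← hj, sub_self]
    obtain ⟨m, hm⟩ := hdvd
    have hrho : v27wRho P0 f = N * m + d j := by omega
    set h : F := x ^ m * e j with hh
    have hhB : h ∈ v27wB P0 := (v27wB P0).mul_mem ((v27wB P0).pow_mem D.x_mem m) (D.e_mem j)
    have hh0 : h ≠ 0 := mul_ne_zero (pow_ne_zero m D.x_ne) (D.e_ne j)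
    have hrhoh : v27wRho P0 h = v27wRho P0 f := by rw [hrho]; exact v27w_rho_mon hres D m j
    have hord : P0.ord f = P0.ord h := by
      have h1 := v27w_rho_eq hres hf hf0
      have h2 := v27w_rho_eq hres hhB hh0
      rw [hrhoh] at h2
      omega
    obtain ⟨c, hc0, hc⟩ := v27w_exists_sub hdeg hf0 hh0 hord
    have hch : v27wPsi x e (Pi.single j (C c * X ^ m)) = c • h := by
      rw [v27wPsi_single, map_mul, aeval_C, map_pow, aeval_X, Algebra.smul_def, hh, mul_assoc]
    by_cases hz : f - c • h = 0
    · exact ⟨Pi.single j (C c * X ^ m), by rw [hch]; exact (sub_eq_zero.mp hz).symm⟩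
    · have hlt := hc.resolve_left hz
      have hf'B : f - c • h ∈ v27wB P0 :=
        (v27wB P0).sub_mem hf ((v27wB P0).smul_mem hhB c)
      have hrho' : v27wRho P0 (f - c • h) < n := by
        have h1 := v27w_rho_eq hres hf hf0
        have h2 := v27w_rho_eq hres hf'B hz
        have : (v27wRho P0 (f - c • h) : ℤ) < v27wRho P0 f := by omega
        rw [← hn]
        exact_mod_cast this
      obtain ⟨a', ha'⟩ := ih _ hrho' _ hf'B rfl
      refine ⟨a' + Pi.single j (C c * X ^ m), ?_⟩
      rw [map_add, ha', hch]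
      ring

end Fermat.Agent.V.Weier
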